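/-
P-ES / block ES-B (helper29): descent of torsion divisor classes along an extension of
algebraically closed constant fields (`ℚ̄ ⊂ ℂ`).  INTERFACES ONLY: definitions and
statement-Props.  Everything lives in namespace `Fermat.Agent.H29`.

Abstract setting: `k ⊂ K` algebraically closed of characteristic zero, `Fk/k` and `FK/K`
function fields of one variable, `bc : Fk → FK` a field embedding over `ι : k → K` such that
`K` and `bc Fk` are linearly disjoint over `k` and generate `FK`.
-/
import Mathlib
import Fermat.Prelude.Def_AlgebraicCurve_BaseChangeGalois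
import Fermat.Prelude.Def_AlgebraicCurve_Repartitions
import Fermat.Prelude.Def_ModularCurve_ArithmeticGalois

set_option autoImplicit false

noncomputable section

open AlgebraicCurve IntermediateField

namespace Fermat.Agent.H29

/-- A constant field extension of function fields of one variable. -/
structure ConstExt (k K Fk FK : Type) [Field k] [Field K] [Field Fk] [Field FK]
    [Algebra k Fk] [Algebra K FK] where
  /-- the embedding of constant fields -/
  ι : k →+* K
  /-- the embedding of function fields -/
  bc : Fk →+* FK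
  bc_algebraMap : ∀ a : k, bc (algebraMap k Fk a) = algebraMap K FK (ι a)
  /-- linear disjointness: a family of constants of `K` which is linearly independent over `k`
  stays linearly independent over `bc Fk`. -/
  ld : ∀ (n : ℕ) (e : Fin n → K) (f : Fin n → Fk),
    (∀ c : Fin n → k, ∑ i, ι (c i) * e i = 0 → ∀ i, c i = 0) →
    ∑ i, algebraMap K FK (e i) * bc (f i) = 0 → ∀ i, f i = 0
  /-- generation: every element of `FK` is a quotient of `K`-linear combinations of elements
  of `bc Fk`. -/
  gen : ∀ h : FK, ∃ (n : ℕ) (e : Fin n → K) (u w : Fin n → Fk),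
    ∑ i, algebraMap K FK (e i) * bc (w i) ≠ 0 ∧
    h * ∑ i, algebraMap K FK (e i) * bc (w i) = ∑ i, algebraMap K FK (e i) * bc (u i)
  /-- a coordinate -/
  x : Fk
  x_transc : Transcendental k x
  x_fin : FiniteDimensional k⟮x⟯ Fk
  bcx_transc : Transcendental K (bc x)
  bcx_fin : FiniteDimensional K⟮bc x⟯ FK

/-- A group of semilinear automorphisms of `FK/K` fixing `bc Fk`, with fixed field `bc Fk`,
such that constants outside `ι k` have infinite orbits under every subgroup of finite index,
together with a Galois-equivariant `K`-homogeneous "leading coefficient". -/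
structure GaloisData {k K Fk FK : Type} [Field k] [Field K] [Field Fk] [Field FK]
    [Algebra k Fk] [Algebra K FK] (E : ConstExt k K Fk FK) where
  G : Type
  [group : Group G]
  ρ : G →* SemilinearAut K FK
  fix_bc : ∀ (g : G) (f : Fk), ρ g • E.bc f = E.bc f
  fixed : ∀ h : FK, (∀ g : G, ρ g • h = h) → h ∈ Set.range E.bc
  orbit : ∀ c : K, c ∉ Set.range E.ι → ∀ H : Subgroup G, H.FiniteIndex →
    {d : K | ∃ g ∈ H, SemilinearAut.baseAut (ρ g) c = d}.Infinite
  lead : FK → K
  lead_ne : ∀ h : FK, h ≠ 0 → lead h ≠ 0
  lead_smul : ∀ (c : K) (h : FK), lead (algebraMap K FK c * h) = c * lead h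
  lead_galois : ∀ (g : G) (h : FK), lead (ρ g • h) = SemilinearAut.baseAut (ρ g) (lead h)

attribute [instance] GaloisData.group

/-- `ext` assigns to every place of `Fk` an unramified extension to `FK`. -/
def IsPlaceExt {k K Fk FK : Type} [Field k] [Field K] [Field Fk] [Field FK]
    [Algebra k Fk] [Algebra K FK] (E : ConstExt k K Fk FK)
    (ext : Place k Fk → Place K FK) : Prop :=
  ∀ (v : Place k Fk) (f : Fk), (ext v).ord (E.bc f) = v.ord f

/-- Base change of divisors along a map of places. -/
def divisorBC {k K Fk FK : Type} [Field k] [Field K] [Field Fk] [Field FK]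
    [Algebra k Fk] [Algebra K FK] (ext : Place k Fk → Place K FK) :
    Divisor k Fk →+ Divisor K FK :=
  Finsupp.mapDomain.addMonoidHom ext

/-! ### General function field lemmas (one field) -/

/-- **ESB-0** A function without zeros and poles is constant. -/
def ConstantStatement : Prop :=
  ∀ (K F : Type) [Field K] [Field F] [Algebra K F] [IsAlgClosed K] [CharZero K]
    (x : F), Transcendental K x → FiniteDimensional K⟮x⟯ F →
    ∀ h : F, h ≠ 0 → (∀ w : Place K F, w.ord h = 0) → h ∈ Set.range (algebraMap K F)

/-- **ESB-1** Every nontrivial valuation ring of `F` containing the constants is a discrete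
valuation ring (so it is the valuation ring of a place). -/
def ValuationRingDVRStatement : Prop :=
  ∀ (K F : Type) [Field K] [Field F] [Algebra K F] [IsAlgClosed K] [CharZero K]
    (x : F), Transcendental K x → FiniteDimensional K⟮x⟯ F →
    ∀ V : ValuationSubring F, (∀ a : K, algebraMap K F a ∈ V) → V ≠ ⊤ →
      ∃ w : Place K F, w.toValuationSubring = V

/-- **ESB-6** Minimal auxiliary divisor: for `D` of degree zero, if `L(D + B) ≠ 0` for some
effective `B` supported in `S`, then there is such a `B` with `L(D + B)` of dimension exactly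
one. -/
def MinimalBStatement : Prop :=
  ∀ (K F : Type) [Field K] [Field F] [Algebra K F] [IsAlgClosed K] [CharZero K]
    (x : F), Transcendental K x → FiniteDimensional K⟮x⟯ F →
    ∀ (S : Set (Place K F)) (D : Divisor K F), Divisor.degree D = 0 →
      (∃ B : Divisor K F, 0 ≤ B ∧ (∀ v, B v ≠ 0 → v ∈ S) ∧
        ∃ f : F, f ≠ 0 ∧ f ∈ riemannRochSpace (D + B)) →
      ∃ B : Divisor K F, 0 ≤ B ∧ (∀ v, B v ≠ 0 → v ∈ S) ∧
        ∃ f : F, f ≠ 0 ∧ f ∈ riemannRochSpace (D + B) ∧
          ∀ g : F, g ∈ riemannRochSpace (D + B) → ∃ c : K, g = algebraMap K F c * f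

/-- **ESB-10** Automorphisms of an algebraically closed field over an algebraically closed
subfield: every element outside the subfield can be translated by `1`. -/
def TranslationAutStatement : Prop :=
  ∀ (k K : Type) [Field k] [Field K] [IsAlgClosed k] [IsAlgClosed K] [CharZero K]
    (ι : k →+* K) (c : K), c ∉ Set.range ι →
    ∃ σ : K ≃+* K, (∀ a : k, σ (ι a) = ι a) ∧ σ c = c + 1

/-! ### Extension and restriction of places -/

/-- **ESB-2a** Existence of a place of `FK` above a given place of `Fk` (weak form: the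
valuation ring restricts to the given one). -/
def PlaceAboveStatement : Prop :=
  ∀ (k K Fk FK : Type) [Field k] [Field K] [Field Fk] [Field FK]
    [Algebra k Fk] [Algebra K FK] [IsAlgClosed k] [CharZero k] [IsAlgClosed K] [CharZero K]
    (E : ConstExt k K Fk FK) (v : Place k Fk),
    ∃ w : Place K FK, ∀ f : Fk, E.bc f ∈ w.toValuationSubring ↔ f ∈ v.toValuationSubring

/-- **ESB-2b** Gauss formula: a place of `FK` whose valuation ring restricts to that of `v`
is unramified over `v`, and the order of a `K`-combination with `k`-independent coefficients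
is the minimum of the orders. -/
def GaussFormulaStatement : Prop :=
  ∀ (k K Fk FK : Type) [Field k] [Field K] [Field Fk] [Field FK]
    [Algebra k Fk] [Algebra K FK] [IsAlgClosed k] [CharZero k] [IsAlgClosed K] [CharZero K]
    (E : ConstExt k K Fk FK) (v : Place k Fk) (w : Place K FK),
    (∀ f : Fk, E.bc f ∈ w.toValuationSubring ↔ f ∈ v.toValuationSubring) →
    (∀ f : Fk, w.ord (E.bc f) = v.ord f) ∧
    ∀ (n : ℕ) (e : Fin n → K) (f : Fin n → Fk) (m : ℤ),
      (∀ c : Fin n → k, ∑ i, E.ι (c i) * e i = 0 → ∀ i, c i = 0) →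
      (∀ i, f i = 0 ∨ m ≤ v.ord (f i)) → (∃ i, f i ≠ 0 ∧ v.ord (f i) = m) →
      ∑ i, algebraMap K FK (e i) * E.bc (f i) ≠ 0 ∧
      w.ord (∑ i, algebraMap K FK (e i) * E.bc (f i)) = m

/-- **ESB-2c** Uniqueness of the extension of a place. -/
def PlaceExtUniqueStatement : Prop :=
  ∀ (k K Fk FK : Type) [Field k] [Field K] [Field Fk] [Field FK]
    [Algebra k Fk] [Algebra K FK] [IsAlgClosed k] [CharZero k] [IsAlgClosed K] [CharZero K]
    (E : ConstExt k K Fk FK) (v : Place k Fk) (w w' : Place K FK),
    (∀ f : Fk, w.ord (E.bc f) = v.ord f) → (∀ f : Fk, w'.ord (E.bc f) = v.ord f) → w = w'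

/-- **ESB-2** (assembled) Existence of an injective unramified extension map of places. -/
def PlaceExtStatement : Prop :=
  ∀ (k K Fk FK : Type) [Field k] [Field K] [Field Fk] [Field FK]
    [Algebra k Fk] [Algebra K FK] [IsAlgClosed k] [CharZero k] [IsAlgClosed K] [CharZero K]
    (E : ConstExt k K Fk FK),
    ∃ ext : Place k Fk → Place K FK, IsPlaceExt E ext ∧ Function.Injective ext

/-- **ESB-3** A place of `FK` at which some nonzero element of `bc Fk` has nonzero order is the
extension of a place of `Fk` ("rational place"). -/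
def RationalPlaceStatement : Prop :=
  ∀ (k K Fk FK : Type) [Field k] [Field K] [Field Fk] [Field FK]
    [Algebra k Fk] [Algebra K FK] [IsAlgClosed k] [CharZero k] [IsAlgClosed K] [CharZero K]
    (E : ConstExt k K Fk FK) (w : Place K FK),
    (∃ f : Fk, f ≠ 0 ∧ w.ord (E.bc f) ≠ 0) →
    ∃ v : Place k Fk, ∀ f : Fk, w.ord (E.bc f) = v.ord f

/-! ### Divisors -/

/-- **ESB-4** Base change of divisors preserves degrees and sends the divisor of `f` to the
divisor of `bc f`. -/
def DivisorBCStatement : Prop :=
  ∀ (k K Fk FK : Type) [Field k] [Field K] [Field Fk] [Field FK]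
    [Algebra k Fk] [Algebra K FK] [IsAlgClosed k] [CharZero k] [IsAlgClosed K] [CharZero K]
    (E : ConstExt k K Fk FK) (ext : Place k Fk → Place K FK), IsPlaceExt E ext →
    (∀ D : Divisor k Fk, Divisor.degree (divisorBC ext D) = Divisor.degree D) ∧
    (∀ (f : Fk), f ≠ 0 → ∀ D : Divisor k Fk, (∀ v, D v = v.ord f) →
      ∀ w : Place K FK, divisorBC ext D w = w.ord (E.bc f))

/-- **ESB-5** Injectivity: a divisor of `Fk` which becomes principal over `K` is principal. -/
def InjectivityStatement : Prop :=
  ∀ (k K Fk FK : Type) [Field k] [Field K] [Field Fk] [Field FK]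
    [Algebra k Fk] [Algebra K FK] [IsAlgClosed k] [CharZero k] [IsAlgClosed K] [CharZero K]
    (E : ConstExt k K Fk FK) (_Gd : GaloisData E) (ext : Place k Fk → Place K FK),
    IsPlaceExt E ext →
    ∀ D : Divisor k Fk, Divisor.IsPrincipal (divisorBC ext D) → Divisor.IsPrincipal D

/-- **ESB-7** For every divisor `D'` of `FK` there is an effective divisor `B` of `Fk` with
`L(D' + bc_* B) ≠ 0`. -/
def ExistsBStatement : Prop :=
  ∀ (k K Fk FK : Type) [Field k] [Field K] [Field Fk] [Field FK]
    [Algebra k Fk] [Algebra K FK] [IsAlgClosed k] [CharZero k] [IsAlgClosed K] [CharZero K]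
    (E : ConstExt k K Fk FK) (ext : Place k Fk → Place K FK), IsPlaceExt E ext →
    ∀ D' : Divisor K FK, ∃ B : Divisor k Fk, 0 ≤ B ∧
      ∃ f : FK, f ≠ 0 ∧ f ∈ riemannRochSpace (D' + divisorBC ext B)

/-- **ESB-8** A place of `FK` with finite orbit under a subgroup of finite index of the Galois
group is rational. -/
def FiniteOrbitStatement : Prop :=
  ∀ (k K Fk FK : Type) [Field k] [Field K] [Field Fk] [Field FK]
    [Algebra k Fk] [Algebra K FK] [IsAlgClosed k] [CharZero k] [IsAlgClosed K] [CharZero K]
    (E : ConstExt k K Fk FK) (Gd : GaloisData E) (H : Subgroup Gd.G), H.FiniteIndex →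
    ∀ w : Place K FK, {w' : Place K FK | ∃ g ∈ H, Gd.ρ g • w = w'}.Finite →
    ∃ v : Place k Fk, ∀ f : Fk, w.ord (E.bc f) = v.ord f

/-- **ESB-9** Surjectivity on torsion: if the `m`-torsion of `Pic0 K FK` is finite, every
divisor of degree zero of `FK` with `m D'` principal is linearly equivalent to the base change
of a divisor `D` of degree zero of `Fk` with `m D` principal. -/
def SurjectivityStatement : Prop :=
  ∀ (k K Fk FK : Type) [Field k] [Field K] [Field Fk] [Field FK]
    [Algebra k Fk] [Algebra K FK] [IsAlgClosed k] [CharZero k] [IsAlgClosed K] [CharZero K]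
    (E : ConstExt k K Fk FK) (_Gd : GaloisData E) (ext : Place k Fk → Place K FK),
    IsPlaceExt E ext →
    ∀ m : ℕ, 0 < m → Finite (Pic0.torsion K FK m) →
    ∀ D' : Divisor K FK, Divisor.degree D' = 0 → Divisor.IsPrincipal (m • D') →
      ∃ D : Divisor k Fk, Divisor.degree D = 0 ∧ Divisor.IsPrincipal (m • D) ∧
        Divisor.IsPrincipal (D' - divisorBC ext D)

/-! ### The modular instance -/

/-- The modular function field of level `N` over `ℂ` (prelude definition with `L := ℂ`). -/
abbrev FC (N : ℕ) : IntermediateField ℂ (LaurentSeries ℂ) :=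
  ModularCurve.laurentBaseChange ℂ (ModularCurve.modularFunctionFieldFull N)

/-- **ESB-11** The Laurent base change `modularFunctionFieldBar N → FC N` along an embedding
`ι : ℚ̄ → ℂ` is a constant field extension in the sense of `ConstExt`, with `bc` = coefficientwise
`ι`, and it carries Galois data whose group acts through the prelude's `arithmeticGalois`. -/
def LaurentInstanceStatement (N : ℕ) [NeZero N] : Prop :=
  ∀ ι : AlgebraicClosure ℚ →+* ℂ,
    ∃ E : ConstExt (AlgebraicClosure ℚ) ℂ ↥(ModularCurve.modularFunctionFieldBar N) ↥(FC N),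
      E.ι = ι ∧
      (∀ f : ↥(ModularCurve.modularFunctionFieldBar N),
        ((E.bc f : ↥(FC N)) : LaurentSeries ℂ)
          = ModularCurve.coeffMap ι (f : LaurentSeries (AlgebraicClosure ℚ))) ∧
      ∃ Gd : GaloisData E, ∀ g : Gd.G, ∃ σ : ℂ ≃ₐ[ℚ] ℂ,
        Gd.ρ g = ModularCurve.arithmeticGalois (ModularCurve.modularFunctionFieldFull N) σ

/-- **ESB-12** (final) Descent of torsion for the modular function fields: there is a group
homomorphism `Pic0(ℚ̄(X₀(N))) → Pic0(ℂ(X₀(N)))`, induced by an unramified injective extension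
map of places compatible with `ι` on `q`-expansions, which is injective, and which is onto the
`m`-torsion as soon as the latter is finite. -/
def DescentStatement (N : ℕ) [NeZero N] : Prop :=
  ∀ ι : AlgebraicClosure ℚ →+* ℂ,
    ∃ (bc : ↥(ModularCurve.modularFunctionFieldBar N) →+* ↥(FC N))
      (ext : Place (AlgebraicClosure ℚ) ↥(ModularCurve.modularFunctionFieldBar N) →
        Place ℂ ↥(FC N))
      (φ : Pic0 (AlgebraicClosure ℚ) ↥(ModularCurve.modularFunctionFieldBar N) →+
        Pic0 ℂ ↥(FC N)),
      (∀ f, ((bc f : ↥(FC N)) : LaurentSeries ℂ)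
          = ModularCurve.coeffMap ι (f : LaurentSeries (AlgebraicClosure ℚ))) ∧
      Function.Injective ext ∧
      (∀ v f, (ext v).ord (bc f) = v.ord f) ∧
      (∀ w : Place ℂ ↥(FC N), w ∉ Set.range ext → ∀ f, w.ord (bc f) = 0) ∧
      (∀ (D : Divisor (AlgebraicClosure ℚ) ↥(ModularCurve.modularFunctionFieldBar N))
          (hD : D ∈ Divisor.degZero (K := AlgebraicClosure ℚ)
            (F := ↥(ModularCurve.modularFunctionFieldBar N)))
          (hD' : divisorBC ext D ∈ Divisor.degZero (K := ℂ) (F := ↥(FC N))),
          φ (Pic0.mk ⟨D, hD⟩) = Pic0.mk ⟨divisorBC ext D, hD'⟩) ∧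
      (∀ D : Divisor (AlgebraicClosure ℚ) ↥(ModularCurve.modularFunctionFieldBar N),
          Divisor.degree (divisorBC ext D) = Divisor.degree D) ∧
      Function.Injective φ ∧
      ∀ m : ℕ, 0 < m → Finite (Pic0.torsion ℂ ↥(FC N) m) →
        (∀ z : Pic0 ℂ ↥(FC N), z ∈ Pic0.torsion ℂ ↥(FC N) m →
          ∃ z₀ : Pic0 (AlgebraicClosure ℚ) ↥(ModularCurve.modularFunctionFieldBar N),
            z₀ ∈ Pic0.torsion (AlgebraicClosure ℚ) ↥(ModularCurve.modularFunctionFieldBar N) m ∧
            φ z₀ = z) ∧
        Nat.card (Pic0.torsion (AlgebraicClosure ℚ)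
            ↥(ModularCurve.modularFunctionFieldBar N) m)
          = Nat.card (Pic0.torsion ℂ ↥(FC N) m)

end Fermat.Agent.H29

end
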