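/-
P-ES / ES-B (helper29): base change on `Pic0` and small shared lemmas.
-/
import Fermat.Agent.H29.ESB.Interfaces

set_option autoImplicit false

noncomputable section

open AlgebraicCurve IntermediateField

namespace Fermat.Agent.H29

section Abstract

variable {k K Fk FK : Type} [Field k] [Field K] [Field Fk] [Field FK]
  [Algebra k Fk] [Algebra K FK]

/-- Base change on divisors of degree zero. -/
def degZeroBC (ext : Place k Fk → Place K FK)
    (hdeg : ∀ D : Divisor k Fk, Divisor.degree (divisorBC ext D) = Divisor.degree D) :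
    Divisor.degZero (K := k) (F := Fk) →+ Divisor.degZero (K := K) (F := FK) :=
  ((divisorBC ext).comp (Divisor.degZero (K := k) (F := Fk)).subtype).codRestrict _
    (fun D => by
      rw [Divisor.mem_degZero]
      show Divisor.degree (divisorBC ext (D : Divisor k Fk)) = 0
      rw [hdeg]
      exact D.2)

@[simp]
theorem coe_degZeroBC (ext : Place k Fk → Place K FK)
    (hdeg : ∀ D : Divisor k Fk, Divisor.degree (divisorBC ext D) = Divisor.degree D)
    (D : Divisor.degZero (K := k) (F := Fk)) :
    (degZeroBC ext hdeg D : Divisor K FK) = divisorBC ext (D : Divisor k Fk) := rfl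

/-- Base change on `Pic0`. -/
def pic0BC (ext : Place k Fk → Place K FK)
    (hdeg : ∀ D : Divisor k Fk, Divisor.degree (divisorBC ext D) = Divisor.degree D)
    (hprin : ∀ D : Divisor k Fk, Divisor.IsPrincipal D → Divisor.IsPrincipal (divisorBC ext D)) :
    Pic0 k Fk →+ Pic0 K FK :=
  QuotientAddGroup.map _ _ (degZeroBC ext hdeg) (by
    rintro ⟨D, hD0⟩ hD
    simp only [AddSubgroup.mem_addSubgroupOf] at hD ⊢
    exact hprin D hD)

theorem pic0BC_mk (ext : Place k Fk → Place K FK)
    (hdeg : ∀ D : Divisor k Fk, Divisor.degree (divisorBC ext D) = Divisor.degree D)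
    (hprin : ∀ D : Divisor k Fk, Divisor.IsPrincipal D → Divisor.IsPrincipal (divisorBC ext D))
    (D : Divisor.degZero (K := k) (F := Fk)) :
    pic0BC ext hdeg hprin (Pic0.mk D) = Pic0.mk (degZeroBC ext hdeg D) := rfl

theorem pic0_mk_eq_zero_iff {K F : Type} [Field K] [Field F] [Algebra K F]
    (D : Divisor.degZero (K := K) (F := F)) :
    Pic0.mk D = 0 ↔ Divisor.IsPrincipal (D : Divisor K F) := by
  unfold Pic0.mk
  rw [QuotientAddGroup.eq_zero_iff, AddSubgroup.mem_addSubgroupOf]
  rfl

theorem pic0_mk_eq_mk_iff {K F : Type} [Field K] [Field F] [Algebra K F]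
    (D D' : Divisor.degZero (K := K) (F := F)) :
    Pic0.mk D = Pic0.mk D' ↔ Divisor.IsPrincipal ((D : Divisor K F) - (D' : Divisor K F)) := by
  rw [← sub_eq_zero, show Pic0.mk D - Pic0.mk D' = Pic0.mk (D - D') from rfl,
    pic0_mk_eq_zero_iff]
  rfl

end Abstract

end Fermat.Agent.H29

end
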