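/-
P-ES / ES-B (helper29): final assembly `DescentStatement N` from the parts.
-/
import Fermat.Agent.H29.ESB.Basic

set_option autoImplicit false

noncomputable section

open AlgebraicCurve IntermediateField

namespace Fermat.Agent.H29

section Abstract

variable {k K Fk FK : Type} [Field k] [Field K] [Field Fk] [Field FK]
  [Algebra k Fk] [Algebra K FK]

variable [IsAlgClosed k] [CharZero k] [IsAlgClosed K] [CharZero K]

/-- The abstract descent theorem assembled from the parts. -/
theorem abstract_descent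
    (h2c : PlaceExtUniqueStatement) (h3 : RationalPlaceStatement)
    (h4 : DivisorBCStatement) (h5 : InjectivityStatement) (h9 : SurjectivityStatement)
    (E : ConstExt k K Fk FK) (Gd : GaloisData E)
    (ext : Place k Fk → Place K FK) (hext : IsPlaceExt E ext) :
    ∃ φ : Pic0 k Fk →+ Pic0 K FK,
      (∀ w : Place K FK, w ∉ Set.range ext → ∀ f, w.ord (E.bc f) = 0) ∧
      (∀ (D : Divisor k Fk) (hD : D ∈ Divisor.degZero (K := k) (F := Fk))
          (hD' : divisorBC ext D ∈ Divisor.degZero (K := K) (F := FK)),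
          φ (Pic0.mk ⟨D, hD⟩) = Pic0.mk ⟨divisorBC ext D, hD'⟩) ∧
      (∀ D : Divisor k Fk, Divisor.degree (divisorBC ext D) = Divisor.degree D) ∧
      Function.Injective φ ∧
      ∀ m : ℕ, 0 < m → Finite (Pic0.torsion K FK m) →
        (∀ z : Pic0 K FK, z ∈ Pic0.torsion K FK m →
          ∃ z₀ : Pic0 k Fk, z₀ ∈ Pic0.torsion k Fk m ∧ φ z₀ = z) ∧
        Nat.card (Pic0.torsion k Fk m) = Nat.card (Pic0.torsion K FK m) := by
  obtain ⟨hdeg, hdiv⟩ := h4 k K Fk FK E ext hext
  have hprin : ∀ D : Divisor k Fk, Divisor.IsPrincipal D →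
      Divisor.IsPrincipal (divisorBC ext D) := by
    rintro D ⟨f, hf, hD⟩
    exact ⟨E.bc f, (map_ne_zero E.bc).mpr hf, hdiv f hf D hD⟩
  have hrat : ∀ w : Place K FK, w ∉ Set.range ext → ∀ f, w.ord (E.bc f) = 0 := by
    intro w hw f
    by_contra hne
    have hf : f ≠ 0 := by
      rintro rfl
      exact hne (by simp)
    obtain ⟨v, hv⟩ := h3 k K Fk FK E w ⟨f, hf, hne⟩
    exact hw ⟨v, h2c k K Fk FK E v (ext v) w (hext v) hv⟩
  set φ := pic0BC ext hdeg hprin with hφ
  have hinj : Function.Injective φ := by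
    rw [injective_iff_map_eq_zero]
    intro z hz
    obtain ⟨D, rfl⟩ := Pic0.mk_surjective z
    rw [hφ, pic0BC_mk, pic0_mk_eq_zero_iff, coe_degZeroBC] at hz
    rw [pic0_mk_eq_zero_iff]
    exact h5 k K Fk FK E Gd ext hext _ hz
  refine ⟨φ, hrat, ?_, hdeg, hinj, ?_⟩
  · intro D hD hD'
    rfl
  · intro m hm hfin
    have hsurj : ∀ z : Pic0 K FK, z ∈ Pic0.torsion K FK m →
        ∃ z₀ : Pic0 k Fk, z₀ ∈ Pic0.torsion k Fk m ∧ φ z₀ = z := by
      intro z hz
      obtain ⟨D', rfl⟩ := Pic0.mk_surjective z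
      rw [Pic0.mem_torsion] at hz
      have hz' : Divisor.IsPrincipal (m • (D' : Divisor K FK)) := by
        have h1 : ((m : ℤ) • Pic0.mk D' : Pic0 K FK) = Pic0.mk ((m : ℤ) • D') := rfl
        rw [h1, pic0_mk_eq_zero_iff] at hz
        simpa using hz
      obtain ⟨D, hD0, hDm, hDD'⟩ :=
        h9 k K Fk FK E Gd ext hext m hm hfin (D' : Divisor K FK) D'.2 hz'
      refine ⟨Pic0.mk ⟨D, hD0⟩, ?_, ?_⟩
      · rw [Pic0.mem_torsion]
        have h1 : ((m : ℤ) • Pic0.mk ⟨D, hD0⟩ : Pic0 k Fk)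
            = Pic0.mk ((m : ℤ) • (⟨D, hD0⟩ : Divisor.degZero (K := k) (F := Fk))) := rfl
        rw [h1, pic0_mk_eq_zero_iff]
        simpa using hDm
      · rw [hφ, pic0BC_mk, pic0_mk_eq_mk_iff, coe_degZeroBC]
        have : divisorBC ext D - (D' : Divisor K FK) = -((D' : Divisor K FK) - divisorBC ext D) := by
          abel
        rw [this]
        exact (Divisor.principal (K := K) (F := FK)).neg_mem hDD'
    refine ⟨hsurj, ?_⟩
    have hmap : ∀ z : Pic0 k Fk, z ∈ Pic0.torsion k Fk m → φ z ∈ Pic0.torsion K FK m := by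
      intro z hz
      rw [Pic0.mem_torsion] at hz ⊢
      rw [← map_zsmul, hz, map_zero]
    let ψ : Pic0.torsion k Fk m → Pic0.torsion K FK m := fun z => ⟨φ z, hmap z z.2⟩
    have hψ : Function.Bijective ψ := by
      constructor
      · intro a b hab
        have : φ a = φ b := congrArg Subtype.val hab
        exact Subtype.ext (hinj this)
      · rintro ⟨z, hz⟩
        obtain ⟨z₀, hz₀, hzz⟩ := hsurj z hz
        exact ⟨⟨z₀, hz₀⟩, Subtype.ext hzz⟩
    exact Nat.card_congr (Equiv.ofBijective ψ hψ)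

end Abstract

/-- **ESB-12** The descent statement for the modular function fields, from the parts. -/
theorem descent_of_parts (N : ℕ) [NeZero N]
    (hL : LaurentInstanceStatement N) (hExt : PlaceExtStatement)
    (h2c : PlaceExtUniqueStatement) (h3 : RationalPlaceStatement)
    (h4 : DivisorBCStatement) (h5 : InjectivityStatement) (h9 : SurjectivityStatement) :
    DescentStatement N := by
  intro ι
  obtain ⟨E, -, hbc, Gd, -⟩ := hL ι
  obtain ⟨ext, hext, hextinj⟩ := hExt _ _ _ _ E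
  obtain ⟨φ, hrat, hmk, hdeg, hinj, htors⟩ := abstract_descent h2c h3 h4 h5 h9 E Gd ext hext
  exact ⟨E.bc, ext, φ, hbc, hextinj, hext, hrat, hmk, hdeg, hinj, htors⟩

end Fermat.Agent.H29

end
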