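/-
P-ES / ES-B (helper29): ESB-9, surjectivity of base change on torsion classes, assembled from
the parts (as hypotheses).
-/
import Fermat.Agent.H29.ESB.Basic
import Fermat.Agent.H29.FundamentalIdentity
import Fermat.Agent.H12.Gen2
import Fermat.Agent.H23.PlaceBasic

set_option autoImplicit false
set_option linter.style.haveILetI false
set_option linter.deprecated false

noncomputable section

open AlgebraicCurve IntermediateField

namespace Fermat.Agent.H29

section OneField

variable {K F : Type} [Field K] [Field F] [Algebra K F] [IsAlgClosed K] [CharZero K]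

/-- Existence of the divisor of a nonzero function; it has degree zero. -/
theorem exists_principal_divisor (x : F) (hx : Transcendental K x)
    (hfin : FiniteDimensional K⟮x⟯ F) (f : F) (hf : f ≠ 0) :
    ∃ D : Divisor K F, (∀ v, D v = v.ord f) ∧ Divisor.degree D = 0 := by
  classical
  have hsupp : {v : Place K F | v.ord f ≠ 0}.Finite := by
    by_cases hfa : IsAlgebraic K f
    · obtain ⟨c, rfl⟩ := Fermat.Agent.H12.exists_algebraMap_eq_of_isAlgebraic hfa
      have : {v : Place K F | v.ord (algebraMap K F c) ≠ 0} = ∅ := by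
        ext v
        simp [Fermat.Agent.H12.ord_algebraMap]
      rw [this]
      exact Set.finite_empty
    · have hft : Transcendental K f := hfa
      have hft' : Transcendental K f⁻¹ := by
        intro h
        exact hft (by simpa using h.inv)
      haveI := hfin
      haveI h1 : FiniteDimensional K⟮f⟯ F :=
        Fermat.Agent.H12.finiteDimensional_adjoin_simple_of_transcendental x f hft
      haveI h2 : FiniteDimensional K⟮f⁻¹⟯ F :=
        Fermat.Agent.H12.finiteDimensional_adjoin_simple_of_transcendental x f⁻¹ hft'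
      have hz := (fundamentalIdentity_zeros f hft).1
      have hp := (fundamentalIdentity_zeros f⁻¹ hft').1
      refine (hz.union hp).subset ?_
      intro v hv
      rw [Set.mem_setOf_eq] at hv
      rcases lt_or_gt_of_ne hv with h | h
      · right
        show 0 < v.ord f⁻¹
        rw [Place.ord_inv]
        omega
      · left
        exact h
  refine ⟨Finsupp.ofSupportFinite (fun v => v.ord f) (by simpa [Function.support] using hsupp),
    fun v => rfl, ?_⟩
  exact Fermat.Agent.H12.principalDegree fundamentalIdentity K F x hx hfin f hf _ (fun v => rfl)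

end OneField

section Abstract

variable {k K Fk FK : Type} [Field k] [Field K] [Field Fk] [Field FK]
  [Algebra k Fk] [Algebra K FK]

/-- The Galois group fixes the extended places. -/
theorem galois_smul_ext (h2c : PlaceExtUniqueStatement)
    [IsAlgClosed k] [CharZero k] [IsAlgClosed K] [CharZero K]
    (E : ConstExt k K Fk FK) (Gd : GaloisData E)
    (ext : Place k Fk → Place K FK) (hext : IsPlaceExt E ext) (g : Gd.G) (v : Place k Fk) :
    Gd.ρ g • ext v = ext v := by
  refine h2c k K Fk FK E v _ _ (fun f => ?_) (hext v)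
  have h := SemilinearAut.ord_smul (Gd.ρ g) (ext v) (E.bc f)
  rw [Gd.fix_bc] at h
  rw [h, hext]

/-- The Galois group fixes divisors supported on extended places. -/
theorem galois_smul_divisor_of_support (h2c : PlaceExtUniqueStatement)
    [IsAlgClosed k] [CharZero k] [IsAlgClosed K] [CharZero K]
    (E : ConstExt k K Fk FK) (Gd : GaloisData E)
    (ext : Place k Fk → Place K FK) (hext : IsPlaceExt E ext) (g : Gd.G)
    (B : Divisor K FK) (hB : ∀ w, B w ≠ 0 → w ∈ Set.range ext) :
    Gd.ρ g • B = B := by
  ext w
  rw [SemilinearAut.divisor_smul_apply]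
  by_cases hw : w ∈ Set.range ext
  · obtain ⟨v, rfl⟩ := hw
    have h := galois_smul_ext h2c E Gd ext hext g⁻¹ v
    rw [map_inv] at h
    rw [h]
  · have h1 : B w = 0 := by
      by_contra h
      exact hw (hB w h)
    have h2 : B ((Gd.ρ g)⁻¹ • w) = 0 := by
      by_contra h
      obtain ⟨v, hv⟩ := hB _ h
      apply hw
      refine ⟨v, ?_⟩
      have h3 := galois_smul_ext h2c E Gd ext hext g v
      have h4 : Gd.ρ g • ext v = w := by rw [hv, smul_inv_smul]
      rw [← h3, h4]
    rw [h1, h2]


/-- An unramified extension map of places is injective. -/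
theorem isPlaceExt_injective (E : ConstExt k K Fk FK)
    (ext : Place k Fk → Place K FK) (hext : IsPlaceExt E ext) : Function.Injective ext := by
  intro v v' h
  refine Fermat.Agent.H23.place_ext_of_ord v v' (fun f hf => ?_)
  rw [← hext v' f, ← h, hext v f]
  exact hf

/-- **ESB-9** Surjectivity on torsion, from the parts. -/
theorem surjectivity_of_parts
    (h2c : PlaceExtUniqueStatement) (h4 : DivisorBCStatement) (h5 : InjectivityStatement)
    (h6 : MinimalBStatement) (h7 : ExistsBStatement) (h8 : FiniteOrbitStatement) :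
    SurjectivityStatement := by
  classical
  intro k K Fk FK _ _ _ _ _ _ _ _ _ _ E Gd ext hext m hm hfin D' hD'0 hD'm
  obtain ⟨hdeg, hdiv⟩ := h4 k K Fk FK E ext hext
  have hextinj : Function.Injective ext := isPlaceExt_injective E ext hext
  -- (b) the minimal auxiliary divisor
  obtain ⟨B₀, hB₀, f₀, hf₀, hf₀L⟩ := h7 k K Fk FK E ext hext D'
  have hBC_apply : ∀ (A : Divisor k Fk) (v : Place k Fk), divisorBC ext A (ext v) = A v :=
    fun A v => Finsupp.mapDomain_apply hextinj A v
  have hBC_notin : ∀ (A : Divisor k Fk) (w : Place K FK), w ∉ Set.range ext →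
      divisorBC ext A w = 0 := fun A w hw => Finsupp.mapDomain_notin_range A w hw
  obtain ⟨B, hB, hBS, f, hf, hfL, huniq⟩ :=
    h6 K FK (E.bc E.x) E.bcx_transc E.bcx_fin (Set.range ext) D' hD'0
      ⟨divisorBC ext B₀, by
        intro w
        by_cases hw : w ∈ Set.range ext
        · obtain ⟨v, rfl⟩ := hw
          rw [hBC_apply]
          exact hB₀ v
        · rw [hBC_notin B₀ w hw]
          rfl, by
        intro w hw
        by_contra hw'
        exact hw (hBC_notin B₀ w hw'), f₀, hf₀, hf₀L⟩
  -- (a) the stabiliser of the class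
  set z₀ : Divisor.degZero (K := K) (F := FK) := ⟨D', hD'0⟩ with hz₀
  have hz : Pic0.mk z₀ ∈ Pic0.torsion K FK m := by
    rw [Pic0.mem_torsion]
    have h1 : ((m : ℤ) • Pic0.mk z₀ : Pic0 K FK) = Pic0.mk ((m : ℤ) • z₀) := rfl
    rw [h1, pic0_mk_eq_zero_iff]
    simpa [hz₀] using hD'm
  letI : MulAction Gd.G (Pic0.torsion K FK m) := MulAction.compHom _ Gd.ρ
  set H : Subgroup Gd.G :=
    MulAction.stabilizer Gd.G (⟨Pic0.mk z₀, hz⟩ : Pic0.torsion K FK m) with hH
  have hHfin : H.FiniteIndex := by
    rw [Subgroup.finiteIndex_iff, hH, MulAction.index_stabilizer]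
    exact Set.ncard_ne_zero_of_mem (MulAction.mem_orbit_self _) (Set.toFinite _)
  have hHz : ∀ g ∈ H, Gd.ρ g • Pic0.mk z₀ = Pic0.mk z₀ := by
    intro g hg
    have h1 : g • (⟨Pic0.mk z₀, hz⟩ : Pic0.torsion K FK m) = ⟨Pic0.mk z₀, hz⟩ := hg
    exact congrArg Subtype.val h1
  -- (c) the canonical divisor in the class
  obtain ⟨Df, hDf, hDfdeg⟩ := exists_principal_divisor (E.bc E.x) E.bcx_transc E.bcx_fin f hf
  set Edv : Divisor K FK := Df + D' + B with hEdv
  -- (d) it is stable under the stabiliser
  have hkey : ∀ g ∈ H, Gd.ρ g • Edv = Edv := by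
    intro g hg
    set γ := Gd.ρ g with hγ
    have hprin : Divisor.IsPrincipal (γ • D' - D') := by
      have h1 := hHz g hg
      rw [SemilinearAut.pic0_smul_mk, pic0_mk_eq_mk_iff] at h1
      exact h1
    obtain ⟨u, hu, hudiv⟩ := hprin
    have hγB : γ • B = B := galois_smul_divisor_of_support h2c E Gd ext hext g B hBS
    have hγf : γ • f ≠ 0 := by
      rw [SemilinearAut.smul_def]
      exact (map_ne_zero _).mpr hf
    have hordγ : ∀ w : Place K FK, w.ord (γ • f) = (γ⁻¹ • w).ord f := by
      intro w
      have h := SemilinearAut.ord_smul γ (γ⁻¹ • w) f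
      rwa [smul_inv_smul] at h
    have hfw : ∀ w : Place K FK, -(D' w + B w) ≤ w.ord f := by
      intro w
      have h := (mem_riemannRochSpace_iff.mp hfL) w
      rcases h with h | h
      · exact absurd h hf
      · simpa using h
    have hmem : (γ • f) * u ∈ riemannRochSpace (D' + B) := by
      rw [mem_riemannRochSpace_iff]
      intro w
      right
      rw [Place.ord_mul _ hγf hu, hordγ, ← hudiv w]
      have h1 := hfw (γ⁻¹ • w)
      have h2 : (γ • D') w = D' (γ⁻¹ • w) := SemilinearAut.divisor_smul_apply γ D' w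
      have h3 : (γ • B) w = B (γ⁻¹ • w) := SemilinearAut.divisor_smul_apply γ B w
      rw [hγB] at h3
      simp only [Finsupp.coe_add, Finsupp.coe_sub, Pi.add_apply, Pi.sub_apply]
      rw [h2]
      omega
    obtain ⟨c, hc⟩ := huniq _ hmem
    have hc0 : c ≠ 0 := by
      rintro rfl
      rw [map_zero, zero_mul] at hc
      exact mul_ne_zero hγf hu hc
    have hord : ∀ w : Place K FK, w.ord (γ • f) + w.ord u = w.ord f := by
      intro w
      have h1 := congrArg w.ord hc
      rw [Place.ord_mul _ hγf hu,
        Place.ord_mul _ ((map_ne_zero (algebraMap K FK)).mpr hc0) hf,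
        Fermat.Agent.H12.ord_algebraMap, zero_add] at h1
      exact h1
    ext w
    rw [SemilinearAut.divisor_smul_apply]
    have h2 : (γ • D') w = D' (γ⁻¹ • w) := SemilinearAut.divisor_smul_apply γ D' w
    have h3 : (γ • B) w = B (γ⁻¹ • w) := SemilinearAut.divisor_smul_apply γ B w
    rw [hγB] at h3
    have h4 := hord w
    have h5 := hudiv w
    rw [hordγ] at h4
    simp only [hEdv, Finsupp.coe_add, Finsupp.coe_sub, Pi.add_apply, Pi.sub_apply, hDf] at h5 ⊢
    rw [h2] at h5
    omega
  -- (e) its support consists of rational places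
  have hEsupp : ∀ w : Place K FK, Edv w ≠ 0 → w ∈ Set.range ext := by
    intro w hw
    have horb : {w' : Place K FK | ∃ g ∈ H, Gd.ρ g • w = w'}.Finite := by
      refine (Edv.support.finite_toSet).subset ?_
      rintro w' ⟨g, hg, rfl⟩
      rw [Finset.mem_coe, Finsupp.mem_support_iff]
      have h1 := SemilinearAut.divisor_smul_apply_smul (Gd.ρ g) Edv w
      rw [hkey g hg] at h1
      rw [h1]
      exact hw
    obtain ⟨v, hv⟩ := h8 k K Fk FK E Gd H hHfin w horb
    exact ⟨v, h2c k K Fk FK E v (ext v) w (hext v) hv⟩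
  -- (f) descend
  have hE₁ : divisorBC ext (Finsupp.comapDomain ext Edv hextinj.injOn) = Edv :=
    Finsupp.mapDomain_comapDomain ext hextinj Edv (by
      intro w hw
      rw [Finset.mem_coe, Finsupp.mem_support_iff] at hw
      exact hEsupp w hw)
  have hB₁ : divisorBC ext (Finsupp.comapDomain ext B hextinj.injOn) = B :=
    Finsupp.mapDomain_comapDomain ext hextinj B (by
      intro w hw
      rw [Finset.mem_coe, Finsupp.mem_support_iff] at hw
      exact hBS w hw)
  set D : Divisor k Fk :=
    Finsupp.comapDomain ext Edv hextinj.injOn - Finsupp.comapDomain ext B hextinj.injOn with hD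
  have hDbc : divisorBC ext D = Df + D' := by
    rw [hD, map_sub, hE₁, hB₁, hEdv]
    abel
  have hDfprin : Df ∈ Divisor.principal (K := K) (F := FK) := ⟨f, hf, hDf⟩
  refine ⟨D, ?_, ?_, ?_⟩
  · rw [← hdeg D, hDbc, map_add, hDfdeg, hD'0, add_zero]
  · refine h5 k K Fk FK E Gd ext hext (m • D) ?_
    rw [map_nsmul, hDbc, nsmul_add]
    exact (Divisor.principal (K := K) (F := FK)).add_mem
      ((Divisor.principal (K := K) (F := FK)).nsmul_mem hDfprin m) hD'm
  · rw [hDbc]
    have : D' - (Df + D') = -Df := by abel
    rw [this]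
    exact (Divisor.principal (K := K) (F := FK)).neg_mem hDfprin

end Abstract

end Fermat.Agent.H29

end
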