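/-
P-ES / ES-B (helper29): UNCONDITIONAL descent of torsion divisor classes from `ℂ` to `ℚ̄`
for the modular function fields, assembled from the landed parts ESB-0 .. ESB-12.
-/
import Fermat.Agent.H29.ESB.Final
import Fermat.Agent.H29.ESB.Surj
import Fermat.Agent.H73.ESBConstant
import Fermat.Agent.H39.ESBValuationRing
import Fermat.Agent.H98.ESB2a
import Fermat.Agent.H2.ESB2b
import Fermat.Agent.H97.ESB2c
import Fermat.Agent.H88.ES.ESB3
import Fermat.Agent.H65.ESB_DivisorBC
import Fermat.Agent.H81.ESB.Injectivity
import Fermat.Agent.H3.ESBMinimalB
import Fermat.Agent.H10.ESB7
import Fermat.Agent.H85.ESBFiniteOrbit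
import Fermat.Agent.H4.ESB.LaurentInstance

set_option autoImplicit false

noncomputable section

open AlgebraicCurve IntermediateField

namespace Fermat.Agent.H29

theorem constantStatement : ConstantStatement := Fermat.Agent.H73.esbConstantStatement

theorem valuationRingDVRStatement : ValuationRingDVRStatement := Fermat.Agent.H39.valuationRingDVR

theorem gaussFormulaStatement : GaussFormulaStatement := Fermat.Agent.H2.gaussFormulaStatement

theorem placeAboveStatement : PlaceAboveStatement :=
  Fermat.Agent.H98.esb_placeAbove valuationRingDVRStatement

theorem placeExtUniqueStatement : PlaceExtUniqueStatement :=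
  Fermat.Agent.H97.placeExtUnique gaussFormulaStatement

theorem placeExtStatement : PlaceExtStatement :=
  Fermat.Agent.H97.placeExt placeAboveStatement gaussFormulaStatement

theorem rationalPlaceStatement : RationalPlaceStatement :=
  Fermat.Agent.H88.rationalPlaceStatement valuationRingDVRStatement gaussFormulaStatement

theorem divisorBCStatement : DivisorBCStatement :=
  Fermat.Agent.H65.divisorBCStatement placeExtUniqueStatement rationalPlaceStatement

theorem injectivityStatement : InjectivityStatement :=
  Fermat.Agent.H81.ESB.injectivity constantStatement placeExtUniqueStatement divisorBCStatement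

theorem minimalBStatement : MinimalBStatement := Fermat.Agent.H3.esb_minimalB

theorem existsBStatement : ExistsBStatement :=
  Fermat.Agent.H10.esb7_existsB placeExtUniqueStatement rationalPlaceStatement divisorBCStatement

theorem finiteOrbitStatement : FiniteOrbitStatement :=
  Fermat.Agent.H85.finiteOrbit rationalPlaceStatement

theorem surjectivityStatement : SurjectivityStatement :=
  surjectivity_of_parts placeExtUniqueStatement divisorBCStatement injectivityStatement
    minimalBStatement existsBStatement finiteOrbitStatement

theorem laurentInstanceStatement (N : ℕ) [NeZero N] : LaurentInstanceStatement N :=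
  Fermat.Agent.H4.ESB.laurentInstanceStatement N

/-- **ES-B main theorem.** Descent of torsion divisor classes from `ℂ` to `ℚ̄` for the modular
function field of level `N`. -/
theorem descentStatement (N : ℕ) [NeZero N] : DescentStatement N :=
  descent_of_parts N (laurentInstanceStatement N) placeExtStatement placeExtUniqueStatement
    rationalPlaceStatement divisorBCStatement injectivityStatement surjectivityStatement

end Fermat.Agent.H29

end
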