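/-
P-ES / block ES-B (helper29): compatibility of base change of places and divisors with
restriction, pull-back and push-forward along a morphism of function fields (needed for the
Hecke-equivariance of the descent map, interface issue C4 of ES-C).  INTERFACES ONLY.
-/
import Fermat.Agent.H29.ESB.Interfaces
import Fermat.Prelude.Def_AlgebraicCurve_Correspondence
import Fermat.Prelude.Def_ModularCurve_HeckeOperatorTotal

set_option autoImplicit false

noncomputable section

open AlgebraicCurve IntermediateField

namespace Fermat.Agent.H29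

/-- A commutative square: two constant field extensions over the same `ι : k → K` and
morphisms `φk : Fk → Fk'`, `φK : FK → FK'` commuting with the base change maps. -/
def SquareCompat {k K Fk FK Fk' FK' : Type} [Field k] [Field K] [Field Fk] [Field FK]
    [Field Fk'] [Field FK'] [Algebra k Fk] [Algebra K FK] [Algebra k Fk'] [Algebra K FK']
    (E : ConstExt k K Fk FK) (E' : ConstExt k K Fk' FK')
    (φk : Fk →ₐ[k] Fk') (φK : FK →ₐ[K] FK') : Prop :=
  E'.ι = E.ι ∧ ∀ f : Fk, E'.bc (φk f) = φK (E.bc f)

/-- **ESB-13a** Extension of places commutes with restriction along a morphism, preserves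
ramification indices, and places above rational places are rational. -/
def RestrictBCStatement : Prop :=
  ∀ (k K Fk FK Fk' FK' : Type) [Field k] [Field K] [Field Fk] [Field FK]
    [Field Fk'] [Field FK'] [Algebra k Fk] [Algebra K FK] [Algebra k Fk'] [Algebra K FK']
    [IsAlgClosed k] [CharZero k] [IsAlgClosed K] [CharZero K]
    (E : ConstExt k K Fk FK) (E' : ConstExt k K Fk' FK')
    (φk : Fk →ₐ[k] Fk') (φK : FK →ₐ[K] FK')
    (hφk : φk.toRingHom.IsIntegral) (hφK : φK.toRingHom.IsIntegral),
    SquareCompat E E' φk φK →
    ∀ (ext : Place k Fk → Place K FK) (ext' : Place k Fk' → Place K FK'),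
      IsPlaceExt E ext → IsPlaceExt E' ext' →
      (∀ v' : Place k Fk', (ext' v').restrictAlong φK hφK = ext (v'.restrictAlong φk hφk)) ∧
      (∀ v' : Place k Fk', (ext' v').ramificationIndexAlong φK = v'.ramificationIndexAlong φk) ∧
      (∀ w' : Place K FK', w'.restrictAlong φK hφK ∈ Set.range ext → w' ∈ Set.range ext')

/-- **ESB-13b** Base change of divisors commutes with pull-back and push-forward. -/
def PullPushBCStatement : Prop :=
  ∀ (k K Fk FK Fk' FK' : Type) [Field k] [Field K] [Field Fk] [Field FK]
    [Field Fk'] [Field FK'] [Algebra k Fk] [Algebra K FK] [Algebra k Fk'] [Algebra K FK']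
    [IsAlgClosed k] [CharZero k] [IsAlgClosed K] [CharZero K]
    [HasPrincipalDivisors k Fk'] [HasPrincipalDivisors K FK']
    (E : ConstExt k K Fk FK) (E' : ConstExt k K Fk' FK')
    (φk : Fk →ₐ[k] Fk') (φK : FK →ₐ[K] FK')
    (hφk : φk.toRingHom.IsIntegral) (hφK : φK.toRingHom.IsIntegral),
    SquareCompat E E' φk φK →
    ∀ (ext : Place k Fk → Place K FK) (ext' : Place k Fk' → Place K FK'),
      IsPlaceExt E ext → IsPlaceExt E' ext' →
      (∀ D : Divisor k Fk,
        divisorBC ext' (Divisor.pullbackAlong φk hφk D)
          = Divisor.pullbackAlong φK hφK (divisorBC ext D)) ∧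
      (∀ D' : Divisor k Fk',
        divisorBC ext (Divisor.pushforwardAlong φk hφk D')
          = Divisor.pushforwardAlong φK hφK (divisorBC ext' D'))

/-- **ESB-13c** Base change of divisors commutes with correspondences. -/
def CorrespondenceBCStatement : Prop :=
  ∀ (k K Fk FK Fk' FK' : Type) [Field k] [Field K] [Field Fk] [Field FK]
    [Field Fk'] [Field FK'] [Algebra k Fk] [Algebra K FK] [Algebra k Fk'] [Algebra K FK']
    [IsAlgClosed k] [CharZero k] [IsAlgClosed K] [CharZero K]
    [HasPrincipalDivisors k Fk'] [HasPrincipalDivisors K FK']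
    (E : ConstExt k K Fk FK) (E' : ConstExt k K Fk' FK')
    (φk ψk : Fk →ₐ[k] Fk') (φK ψK : FK →ₐ[K] FK')
    (hφk : φk.toRingHom.IsIntegral) (hφK : φK.toRingHom.IsIntegral)
    (hψk : ψk.toRingHom.IsIntegral) (hψK : ψK.toRingHom.IsIntegral),
    SquareCompat E E' φk φK → SquareCompat E E' ψk ψK →
    ∀ (ext : Place k Fk → Place K FK) (ext' : Place k Fk' → Place K FK'),
      IsPlaceExt E ext → IsPlaceExt E' ext' →
      ∀ D : Divisor k Fk,
        divisorBC ext (Divisor.correspondence φk ψk hφk hψk D)
          = Divisor.correspondence φK ψK hφK hψK (divisorBC ext D)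

end Fermat.Agent.H29

end
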