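/-
P-ES / ES-B (helper29): ESB-13c, base change commutes with correspondences (from ESB-13b).
-/
import Fermat.Agent.H29.ESB.Interfaces2

set_option autoImplicit false

noncomputable section

open AlgebraicCurve IntermediateField

namespace Fermat.Agent.H29

theorem correspondenceBC_of_pullPush (h : PullPushBCStatement) : CorrespondenceBCStatement := by
  intro k K Fk FK Fk' FK' _ _ _ _ _ _ _ _ _ _ _ _ _ _ _ _ E E' φk ψk φK ψK hφk hφK hψk hψK
    hsq hsq' ext ext' hext hext' D
  obtain ⟨hpull, -⟩ := h k K Fk FK Fk' FK' E E' φk φK hφk hφK hsq ext ext' hext hext'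
  obtain ⟨-, hpush⟩ := h k K Fk FK Fk' FK' E E' ψk ψK hψk hψK hsq' ext ext' hext hext'
  rw [Divisor.correspondence_apply, Divisor.correspondence_apply, hpush, hpull]

end Fermat.Agent.H29

end
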