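/-
P-ES / ES-B (helper29): canonical objects for the modular function fields:
`extC N ι` (extension of places `ℚ̄(X₀(N)) → ℂ(X₀(N))`), `descentHom N ι` (base change on
`Pic0`), its injectivity, bijectivity on torsion, and Hecke equivariance.
-/
import Fermat.Agent.H29.ESB.Descent
import Fermat.Agent.H29.ESB.CorrBC

set_option autoImplicit false

noncomputable section

open AlgebraicCurve IntermediateField ModularCurve

namespace Fermat.Agent.H29

variable (N : ℕ) [NeZero N] (ι : AlgebraicClosure ℚ →+* ℂ)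

/-- The Laurent constant field extension datum (by helper33). -/
abbrev cE : ConstExt (AlgebraicClosure ℚ) ℂ ↥(modularFunctionFieldBar N) ↥(FC N) :=
  Fermat.Agent.H33.ESB.laurentConstExt N ι

/-- The canonical extension of places from `ℚ̄(X₀(N))` to `ℂ(X₀(N))`. -/
def extC : Place (AlgebraicClosure ℚ) ↥(modularFunctionFieldBar N) → Place ℂ ↥(FC N) :=
  (placeExtStatement _ _ _ _ (cE N ι)).choose

theorem extC_isPlaceExt : IsPlaceExt (cE N ι) (extC N ι) :=
  (placeExtStatement _ _ _ _ (cE N ι)).choose_spec.1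

theorem extC_injective : Function.Injective (extC N ι) :=
  (placeExtStatement _ _ _ _ (cE N ι)).choose_spec.2

theorem extC_ord (v : Place (AlgebraicClosure ℚ) ↥(modularFunctionFieldBar N))
    (f : ↥(modularFunctionFieldBar N)) :
    (extC N ι v).ord ((cE N ι).bc f) = v.ord f :=
  extC_isPlaceExt N ι v f

theorem cE_bc_coe (f : ↥(modularFunctionFieldBar N)) :
    (((cE N ι).bc f : ↥(FC N)) : LaurentSeries ℂ)
      = coeffMap ι (f : LaurentSeries (AlgebraicClosure ℚ)) := rfl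

/-- A place of `ℂ(X₀(N))` is in the range of `extC` as soon as one element of `ℚ̄(X₀(N))` has
nonzero order there. -/
theorem mem_range_extC_of_ord_ne_zero (w : Place ℂ ↥(FC N)) (f : ↥(modularFunctionFieldBar N))
    (hf : w.ord ((cE N ι).bc f) ≠ 0) : w ∈ Set.range (extC N ι) := by
  have hf0 : f ≠ 0 := by
    rintro rfl
    exact hf (by simp)
  obtain ⟨v, hv⟩ := rationalPlaceStatement _ _ _ _ (cE N ι) w ⟨f, hf0, hf⟩
  exact ⟨v, placeExtUniqueStatement _ _ _ _ (cE N ι) v _ _ (extC_isPlaceExt N ι v) hv⟩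

theorem degree_divisorBC_extC (D : Divisor (AlgebraicClosure ℚ) ↥(modularFunctionFieldBar N)) :
    Divisor.degree (divisorBC (extC N ι) D) = Divisor.degree D :=
  (divisorBCStatement _ _ _ _ (cE N ι) (extC N ι) (extC_isPlaceExt N ι)).1 D

theorem isPrincipal_divisorBC_extC
    (D : Divisor (AlgebraicClosure ℚ) ↥(modularFunctionFieldBar N))
    (hD : Divisor.IsPrincipal D) : Divisor.IsPrincipal (divisorBC (extC N ι) D) := by
  obtain ⟨f, hf, hD⟩ := hD
  exact ⟨(cE N ι).bc f, (map_ne_zero _).mpr hf,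
    (divisorBCStatement _ _ _ _ (cE N ι) (extC N ι) (extC_isPlaceExt N ι)).2 f hf D hD⟩

/-- **The descent homomorphism** `Pic0(ℚ̄(X₀(N))) → Pic0(ℂ(X₀(N)))`. -/
def descentHom :
    Pic0 (AlgebraicClosure ℚ) ↥(modularFunctionFieldBar N) →+ Pic0 ℂ ↥(FC N) :=
  pic0BC (extC N ι) (degree_divisorBC_extC N ι) (isPrincipal_divisorBC_extC N ι)

theorem descentHom_mk
    (D : Divisor.degZero (K := AlgebraicClosure ℚ) (F := ↥(modularFunctionFieldBar N))) :
    descentHom N ι (Pic0.mk D)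
      = Pic0.mk (degZeroBC (extC N ι) (degree_divisorBC_extC N ι) D) := rfl

theorem descentHom_injective : Function.Injective (descentHom N ι) := by
  rw [injective_iff_map_eq_zero]
  intro z hz
  obtain ⟨D, rfl⟩ := Pic0.mk_surjective z
  rw [descentHom_mk, pic0_mk_eq_zero_iff, coe_degZeroBC] at hz
  rw [pic0_mk_eq_zero_iff]
  obtain ⟨Gd, -⟩ := Fermat.Agent.H4.ESB.exists_galoisData (F₀ := modularFunctionFieldFull N) (cE N ι) (fun _ => rfl)
  exact injectivityStatement _ _ _ _ (cE N ι) Gd (extC N ι) (extC_isPlaceExt N ι) _ hz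

theorem descentHom_mem_torsion {m : ℕ}
    {z : Pic0 (AlgebraicClosure ℚ) ↥(modularFunctionFieldBar N)}
    (hz : z ∈ Pic0.torsion (AlgebraicClosure ℚ) ↥(modularFunctionFieldBar N) m) :
    descentHom N ι z ∈ Pic0.torsion ℂ ↥(FC N) m := by
  rw [Pic0.mem_torsion] at hz ⊢
  rw [← map_zsmul, hz, map_zero]

/-- Surjectivity of the descent homomorphism on `m`-torsion (given finiteness over `ℂ`). -/
theorem descentHom_surjOn_torsion {m : ℕ} (hm : 0 < m)
    (hfin : Finite (Pic0.torsion ℂ ↥(FC N) m)) (z : Pic0 ℂ ↥(FC N))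
    (hz : z ∈ Pic0.torsion ℂ ↥(FC N) m) :
    ∃ z₀ : Pic0 (AlgebraicClosure ℚ) ↥(modularFunctionFieldBar N),
      z₀ ∈ Pic0.torsion (AlgebraicClosure ℚ) ↥(modularFunctionFieldBar N) m ∧
      descentHom N ι z₀ = z := by
  obtain ⟨Gd, -⟩ := Fermat.Agent.H4.ESB.exists_galoisData (F₀ := modularFunctionFieldFull N) (cE N ι) (fun _ => rfl)
  obtain ⟨D', rfl⟩ := Pic0.mk_surjective z
  rw [Pic0.mem_torsion] at hz
  have hz' : Divisor.IsPrincipal (m • (D' : Divisor ℂ ↥(FC N))) := by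
    have h1 : ((m : ℤ) • Pic0.mk D' : Pic0 ℂ ↥(FC N)) = Pic0.mk ((m : ℤ) • D') := rfl
    rw [h1, pic0_mk_eq_zero_iff] at hz
    simpa using hz
  obtain ⟨D, hD0, hDm, hDD'⟩ :=
    surjectivityStatement _ _ _ _ (cE N ι) Gd (extC N ι) (extC_isPlaceExt N ι) m hm hfin
      (D' : Divisor ℂ ↥(FC N)) D'.2 hz'
  refine ⟨Pic0.mk ⟨D, hD0⟩, ?_, ?_⟩
  · rw [Pic0.mem_torsion]
    have h1 : ((m : ℤ) • Pic0.mk ⟨D, hD0⟩ :
        Pic0 (AlgebraicClosure ℚ) ↥(modularFunctionFieldBar N))
        = Pic0.mk ((m : ℤ) • (⟨D, hD0⟩ : Divisor.degZero (K := AlgebraicClosure ℚ)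
            (F := ↥(modularFunctionFieldBar N)))) := rfl
    rw [h1, pic0_mk_eq_zero_iff]
    simpa using hDm
  · rw [descentHom_mk, pic0_mk_eq_mk_iff, coe_degZeroBC]
    have : divisorBC (extC N ι) D - (D' : Divisor ℂ ↥(FC N))
        = -((D' : Divisor ℂ ↥(FC N)) - divisorBC (extC N ι) D) := by
      abel
    rw [this]
    exact (Divisor.principal (K := ℂ) (F := ↥(FC N))).neg_mem hDD'

/-- The descent isomorphism on `m`-torsion. -/
def descentTorsionEquiv {m : ℕ} (hm : 0 < m) (hfin : Finite (Pic0.torsion ℂ ↥(FC N) m)) :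
    Pic0.torsion (AlgebraicClosure ℚ) ↥(modularFunctionFieldBar N) m ≃+
      Pic0.torsion ℂ ↥(FC N) m :=
  AddEquiv.ofBijective
    (((descentHom N ι).comp
        (Pic0.torsion (AlgebraicClosure ℚ) ↥(modularFunctionFieldBar N) m).subtype).codRestrict
      (Pic0.torsion ℂ ↥(FC N) m) (fun z => descentHom_mem_torsion N ι z.2))
    ⟨fun a b hab => Subtype.ext (descentHom_injective N ι (congrArg Subtype.val hab)),
      fun z => by
        obtain ⟨z₀, hz₀, hzz⟩ := descentHom_surjOn_torsion N ι hm hfin z.1 z.2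
        exact ⟨⟨z₀, hz₀⟩, Subtype.ext hzz⟩⟩

@[simp]
theorem coe_descentTorsionEquiv {m : ℕ} (hm : 0 < m)
    (hfin : Finite (Pic0.torsion ℂ ↥(FC N) m))
    (z : Pic0.torsion (AlgebraicClosure ℚ) ↥(modularFunctionFieldBar N) m) :
    ((descentTorsionEquiv N ι hm hfin z : Pic0.torsion ℂ ↥(FC N) m) : Pic0 ℂ ↥(FC N))
      = descentHom N ι (z : Pic0 (AlgebraicClosure ℚ) ↥(modularFunctionFieldBar N)) := rfl

end Fermat.Agent.H29

end
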