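/-
P-ES / ES-B (helper29): Hecke equivariance of the descent homomorphism
`Pic0(ℚ̄(X₀(N))) → Pic0(ℂ(X₀(N)))` (interface issue C4), from `PullPushBCStatement`.
-/
import Fermat.Agent.H29.ESB.Canonical

set_option autoImplicit false
set_option linter.style.haveILetI false

noncomputable section

open AlgebraicCurve IntermediateField ModularCurve

namespace Fermat.Agent.H29

theorem coeffMap_qExpand_comm {R S : Type*} [CommRing R] [CommRing S] (f : R →+* S) (n : ℕ)
    [NeZero n] (x : LaurentSeries R) :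
    coeffMap f (qExpand R n x) = qExpand S n (coeffMap f x) := by
  ext k
  by_cases hk : (n : ℤ) ∣ k
  · obtain ⟨m, rfl⟩ := hk
    rw [coeffMap_coeff, qExpand_coeff_mul, qExpand_coeff_mul, coeffMap_coeff]
  · rw [coeffMap_coeff, qExpand_coeff_of_not_dvd n _ hk, qExpand_coeff_of_not_dvd n _ hk,
      map_zero]


section AbstractCorr

variable {k K Fk FK Fk' FK' : Type} [Field k] [Field K] [Field Fk] [Field FK]
  [Field Fk'] [Field FK'] [Algebra k Fk] [Algebra K FK] [Algebra k Fk'] [Algebra K FK']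
  [HasPrincipalDivisors k Fk'] [HasPrincipalDivisors K FK']

/-- Base change on `Pic0` commutes with correspondences as soon as it does on divisors. -/
theorem pic0BC_correspondence (ext : Place k Fk → Place K FK)
    (hdeg : ∀ D : Divisor k Fk, Divisor.degree (divisorBC ext D) = Divisor.degree D)
    (hprin : ∀ D : Divisor k Fk, Divisor.IsPrincipal D → Divisor.IsPrincipal (divisorBC ext D))
    (φk ψk : Fk →ₐ[k] Fk') (φK ψK : FK →ₐ[K] FK')
    (hφk : φk.toRingHom.IsIntegral) (hφK : φK.toRingHom.IsIntegral)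
    (hψk : ψk.toRingHom.IsIntegral) (hψK : ψK.toRingHom.IsIntegral)
    (hFIk : FundamentalIdentityAlong k φk hφk) (hFIK : FundamentalIdentityAlong K φK hφK)
    (hfink : FiniteAlong k ψk) (hfinK : FiniteAlong K ψK)
    (hNk : NormFormulaAlong k ψk hfink) (hNK : NormFormulaAlong K ψK hfinK)
    (hcorr : ∀ D : Divisor k Fk,
      divisorBC ext (Divisor.correspondence φk ψk hφk hψk D)
        = Divisor.correspondence φK ψK hφK hψK (divisorBC ext D))
    (x : Pic0 k Fk) :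
    pic0BC ext hdeg hprin (Pic0.correspondence φk ψk hφk hψk hFIk hfink hNk x)
      = Pic0.correspondence φK ψK hφK hψK hFIK hfinK hNK (pic0BC ext hdeg hprin x) := by
  obtain ⟨D, rfl⟩ := Pic0.mk_surjective x
  rw [Pic0.correspondence_mk, pic0BC_mk, pic0BC_mk, Pic0.correspondence_mk]
  congr 1
  apply Subtype.ext
  rw [coe_degZeroBC, Pic0.coe_degZeroCorrespondence, Pic0.coe_degZeroCorrespondence,
    coe_degZeroBC]
  exact hcorr _

end AbstractCorr

variable (N : ℕ) [NeZero N] (ι : AlgebraicClosure ℚ →+* ℂ) (ℓ : ℕ) [NeZero ℓ]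

theorem squareCompat_alpha :
    SquareCompat (cE N ι) (cE (N * ℓ) ι) (heckeAlphaBar (AlgebraicClosure ℚ) N ℓ)
      (heckeAlphaBar ℂ N ℓ) := by
  refine ⟨rfl, fun f => Subtype.ext ?_⟩
  rw [cE_bc_coe, coe_heckeAlphaBar, coe_heckeAlphaBar, cE_bc_coe]

theorem squareCompat_beta :
    SquareCompat (cE N ι) (cE (N * ℓ) ι) (heckeBetaBar (AlgebraicClosure ℚ) N ℓ)
      (heckeBetaBar ℂ N ℓ) := by
  refine ⟨rfl, fun f => Subtype.ext ?_⟩
  rw [cE_bc_coe, coe_heckeBetaBar, coe_heckeBetaBar, cE_bc_coe, coeffMap_qExpand_comm]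

/-- Base change of divisors commutes with the Hecke correspondence on divisors. -/
theorem divisorBC_heckeDivBar (hPP : PullPushBCStatement)
    (hαk : HeckeAlphaBarIntegral (AlgebraicClosure ℚ) N ℓ)
    (hβk : HeckeBetaBarIntegral (AlgebraicClosure ℚ) N ℓ)
    (hαC : HeckeAlphaBarIntegral ℂ N ℓ) (hβC : HeckeBetaBarIntegral ℂ N ℓ)
    [HasPrincipalDivisors (AlgebraicClosure ℚ)
      (laurentBaseChange (AlgebraicClosure ℚ) (modularFunctionFieldFull (N * ℓ)))]
    [HasPrincipalDivisors ℂ (laurentBaseChange ℂ (modularFunctionFieldFull (N * ℓ)))]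
    (D : Divisor (AlgebraicClosure ℚ) ↥(modularFunctionFieldBar N)) :
    divisorBC (extC N ι) (heckeDivBar hαk hβk D) = heckeDivBar hαC hβC (divisorBC (extC N ι) D) :=
  correspondenceBC_of_pullPush hPP _ _ _ _ _ _ (cE N ι) (cE (N * ℓ) ι)
    (heckeBetaBar (AlgebraicClosure ℚ) N ℓ) (heckeAlphaBar (AlgebraicClosure ℚ) N ℓ)
    (heckeBetaBar ℂ N ℓ) (heckeAlphaBar ℂ N ℓ) hβk hβC hαk hαC
    (squareCompat_beta N ι ℓ) (squareCompat_alpha N ι ℓ)
    (extC N ι) (extC (N * ℓ) ι) (extC_isPlaceExt N ι) (extC_isPlaceExt (N * ℓ) ι) D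

/-- **Hecke equivariance of descent** (form with explicit inputs). -/
theorem descentHom_heckePic0Bar (hPP : PullPushBCStatement)
    (hαk : HeckeAlphaBarIntegral (AlgebraicClosure ℚ) N ℓ)
    (hβk : HeckeBetaBarIntegral (AlgebraicClosure ℚ) N ℓ)
    (hαC : HeckeAlphaBarIntegral ℂ N ℓ) (hβC : HeckeBetaBarIntegral ℂ N ℓ)
    [HasPrincipalDivisors (AlgebraicClosure ℚ)
      (laurentBaseChange (AlgebraicClosure ℚ) (modularFunctionFieldFull (N * ℓ)))]
    [HasPrincipalDivisors ℂ (laurentBaseChange ℂ (modularFunctionFieldFull (N * ℓ)))]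
    (hFIk : FundamentalIdentityAlong (AlgebraicClosure ℚ) (heckeBetaBar (AlgebraicClosure ℚ) N ℓ) hβk)
    (hFIC : FundamentalIdentityAlong ℂ (heckeBetaBar ℂ N ℓ) hβC)
    (hfink : FiniteAlong (AlgebraicClosure ℚ) (heckeAlphaBar (AlgebraicClosure ℚ) N ℓ))
    (hfinC : FiniteAlong ℂ (heckeAlphaBar ℂ N ℓ))
    (hNk : NormFormulaAlong (AlgebraicClosure ℚ) (heckeAlphaBar (AlgebraicClosure ℚ) N ℓ) hfink)
    (hNC : NormFormulaAlong ℂ (heckeAlphaBar ℂ N ℓ) hfinC)
    (x : Pic0 (AlgebraicClosure ℚ) ↥(modularFunctionFieldBar N)) :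
    descentHom N ι (heckePic0Bar hαk hβk hFIk hfink hNk x)
      = heckePic0Bar hαC hβC hFIC hfinC hNC (descentHom N ι x) :=
  pic0BC_correspondence (extC N ι) (degree_divisorBC_extC N ι) (isPrincipal_divisorBC_extC N ι)
    (heckeBetaBar (AlgebraicClosure ℚ) N ℓ) (heckeAlphaBar (AlgebraicClosure ℚ) N ℓ)
    (heckeBetaBar ℂ N ℓ) (heckeAlphaBar ℂ N ℓ) hβk hβC hαk hαC hFIk hFIC hfink hfinC hNk hNC
    (divisorBC_heckeDivBar N ι ℓ hPP hαk hβk hαC hβC) x

/-- **Hecke equivariance of descent**: the descent homomorphism intertwines the prelude Hecke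
operators `heckeOperatorAlong` over `ℚ̄` and over `ℂ`. -/
theorem descentHom_heckeOperatorAlong (hPP : PullPushBCStatement)
    (hk : HeckeInputsAlong (AlgebraicClosure ℚ) N ℓ) (hC : HeckeInputsAlong ℂ N ℓ)
    (x : Pic0 (AlgebraicClosure ℚ) ↥(modularFunctionFieldBar N)) :
    descentHom N ι (heckeOperatorAlong (AlgebraicClosure ℚ) N ℓ x)
      = heckeOperatorAlong ℂ N ℓ (descentHom N ι x) := by
  obtain ⟨hαk, hβk, hPk, hfink, hFIk, hNk⟩ := hk
  obtain ⟨hαC, hβC, hPC, hfinC, hFIC, hNC⟩ := hC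
  rw [heckeOperatorAlong_eq hαk hβk hFIk hfink hNk, heckeOperatorAlong_eq hαC hβC hFIC hfinC hNC]
  exact descentHom_heckePic0Bar N ι ℓ hPP hαk hβk hαC hβC hFIk hFIC hfink hfinC hNk hNC x

end Fermat.Agent.H29

end
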