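/-
P-ES / ES-B (helper29): UNCONDITIONAL Hecke equivariance of the descent homomorphism
`descentHom N ι : Pic0(ℚ̄(X₀(N))) → Pic0(ℂ(X₀(N)))`.
-/
import Fermat.Agent.H29.ESB.Hecke
import Fermat.Agent.H24.ESB13a
import Fermat.Agent.H60.EsbPullPush

set_option autoImplicit false

noncomputable section

open AlgebraicCurve IntermediateField ModularCurve

namespace Fermat.Agent.H29

theorem restrictBCStatement : RestrictBCStatement :=
  Fermat.Agent.H24.restrictBCStatement placeExtUniqueStatement rationalPlaceStatement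

theorem pullPushBCStatement : PullPushBCStatement :=
  Fermat.Agent.H60.pullPushBCStatement restrictBCStatement

theorem correspondenceBCStatement : CorrespondenceBCStatement :=
  correspondenceBC_of_pullPush pullPushBCStatement

variable (N : ℕ) [NeZero N] (ι : AlgebraicClosure ℚ →+* ℂ) (ℓ : ℕ) [NeZero ℓ]

/-- **Hecke equivariance of descent** (unconditional): if the prelude Hecke inputs hold over
`ℚ̄` and over `ℂ`, the descent homomorphism intertwines `heckeOperatorAlong`. -/
theorem descentHom_hecke
    (hk : HeckeInputsAlong (AlgebraicClosure ℚ) N ℓ) (hC : HeckeInputsAlong ℂ N ℓ)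
    (x : Pic0 (AlgebraicClosure ℚ) ↥(modularFunctionFieldBar N)) :
    descentHom N ι (heckeOperatorAlong (AlgebraicClosure ℚ) N ℓ x)
      = heckeOperatorAlong ℂ N ℓ (descentHom N ι x) :=
  descentHom_heckeOperatorAlong N ι ℓ pullPushBCStatement hk hC x

/-- Hecke equivariance of the descent isomorphism on torsion. -/
theorem descentTorsionEquiv_hecke {m : ℕ} (hm : 0 < m)
    (hfin : Finite (Pic0.torsion ℂ ↥(FC N) m))
    (hk : HeckeInputsAlong (AlgebraicClosure ℚ) N ℓ) (hC : HeckeInputsAlong ℂ N ℓ)
    (z : Pic0.torsion (AlgebraicClosure ℚ) ↥(modularFunctionFieldBar N) m) :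
    heckeOperatorAlong ℂ N ℓ
        ((descentTorsionEquiv N ι hm hfin z : Pic0.torsion ℂ ↥(FC N) m) : Pic0 ℂ ↥(FC N))
      = descentHom N ι (heckeOperatorAlong (AlgebraicClosure ℚ) N ℓ
          (z : Pic0 (AlgebraicClosure ℚ) ↥(modularFunctionFieldBar N))) := by
  rw [coe_descentTorsionEquiv, descentHom_hecke N ι ℓ hk hC]

end Fermat.Agent.H29

end
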